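/-
GATE-B (Ribet S38/S43) / CASE A node A3 (helper73), abstract layer 1 — Mathlib only.

**The order function of a discrete valuation subring with a prescribed uniformiser.**
`V : ValuationSubring F` a DVR, `ϖ : Fˣ` a nonunit of `V` dividing every nonunit of `V`.
Then every `x : Fˣ` is `ϖ ^ n · (unit of V)` for a unique `n : ℤ`, and

  `ordU V ϖ : Fˣ →* Multiplicative ℤ`

is a group homomorphism with kernel `V.unitGroup`, `ordU ϖ = 1`.
-/
import Mathlib

set_option autoImplicit false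

noncomputable section

namespace Fermat.Agent.GB.A3.OrdUnif

variable {F : Type*} [Field F]

/-- `ϖ` is a uniformiser of the valuation subring `V`: a nonunit dividing every nonunit, such that
every nonzero element of `V` is a power of `ϖ` times a unit. -/
structure IsUnifOf (V : ValuationSubring F) (ϖ : Fˣ) : Prop where
  mem_nonunits : (ϖ : F) ∈ V.nonunits
  exists_pow : ∀ x : Fˣ, (x : F) ∈ V → ∃ n : ℕ, x * (ϖ ^ n)⁻¹ ∈ V.unitGroup

variable {V : ValuationSubring F} {ϖ : Fˣ}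

theorem IsUnifOf.not_mem_unitGroup (h : IsUnifOf V ϖ) : ϖ ∉ V.unitGroup := by
  intro hu
  have h1 := (V.mem_unitGroup_iff ϖ).mp hu
  have h2 := (V.mem_nonunits_iff).mp h.mem_nonunits
  exact absurd h1 (ne_of_lt h2)

/-- a positive power of the uniformiser is not a unit -/
theorem IsUnifOf.zpow_mem_unitGroup_iff (h : IsUnifOf V ϖ) (n : ℤ) :
    ϖ ^ n ∈ V.unitGroup ↔ n = 0 := by
  constructor
  · intro hn
    by_contra hne
    have hlt : V.valuation (ϖ : F) < 1 := (V.mem_nonunits_iff).mp h.mem_nonunits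
    have hval : V.valuation ((ϖ ^ n : Fˣ) : F) = 1 := (V.mem_unitGroup_iff _).mp hn
    rw [Units.val_zpow_eq_zpow_val, map_zpow₀] at hval
    have hpos : 0 < V.valuation (ϖ : F) := by
      rw [Valuation.pos_iff]; exact ϖ.ne_zero
    rcases lt_or_gt_of_ne hne with hn0 | hn0
    · -- negative exponent: valuation > 1
      have : 1 < V.valuation (ϖ : F) ^ n := by
        obtain ⟨k, hk⟩ : ∃ k : ℕ, n = -((k : ℤ) + 1) := ⟨(-n - 1).toNat, by omega⟩
        rw [hk, zpow_neg, ← Nat.cast_succ, zpow_natCast]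
        have h1 : V.valuation (ϖ : F) ^ (k + 1) < 1 := pow_lt_one₀ (le_of_lt hpos) hlt (by omega)
        have h0 : 0 < V.valuation (ϖ : F) ^ (k + 1) := pow_pos hpos _
        exact (one_lt_inv₀ h0).mpr h1
      exact absurd hval (ne_of_gt this)
    · have : V.valuation (ϖ : F) ^ n < 1 := by
        obtain ⟨k, hk⟩ : ∃ k : ℕ, n = (k : ℤ) + 1 := ⟨(n - 1).toNat, by omega⟩
        rw [hk, ← Nat.cast_succ, zpow_natCast]
        exact pow_lt_one₀ (le_of_lt hpos) hlt (by omega)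
      exact absurd hval (ne_of_lt this)
  · rintro rfl
    rw [zpow_zero]
    exact one_mem _

/-- existence of the order: every `x : Fˣ` is `ϖ ^ n` times a unit of `V`. -/
theorem IsUnifOf.exists_zpow (h : IsUnifOf V ϖ) (x : Fˣ) :
    ∃ n : ℤ, x * (ϖ ^ n)⁻¹ ∈ V.unitGroup := by
  rcases V.mem_or_inv_mem (x : F) with hx | hx
  · obtain ⟨n, hn⟩ := h.exists_pow x hx
    exact ⟨n, by simpa using hn⟩
  · have hx' : ((x⁻¹ : Fˣ) : F) ∈ V := by simpa using hx
    obtain ⟨n, hn⟩ := h.exists_pow x⁻¹ hx'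
    refine ⟨-(n : ℤ), ?_⟩
    have := inv_mem hn
    rw [mul_inv, inv_inv, inv_inv] at this
    rw [zpow_neg, inv_inv, zpow_natCast, mul_comm]
    rw [mul_comm] at this
    simpa [mul_comm] using this

theorem IsUnifOf.zpow_unique (h : IsUnifOf V ϖ) {x : Fˣ} {n n' : ℤ}
    (hn : x * (ϖ ^ n)⁻¹ ∈ V.unitGroup) (hn' : x * (ϖ ^ n')⁻¹ ∈ V.unitGroup) : n = n' := by
  have h1 : (x * (ϖ ^ n')⁻¹)⁻¹ * (x * (ϖ ^ n)⁻¹) ∈ V.unitGroup := mul_mem (inv_mem hn') hn
  have h2 : (x * (ϖ ^ n')⁻¹)⁻¹ * (x * (ϖ ^ n)⁻¹) = ϖ ^ (n' - n) := by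
    rw [zpow_sub]
    group
  rw [h2, h.zpow_mem_unitGroup_iff] at h1
  omega

/-- the order of `x` with respect to the uniformiser `ϖ` of `V`. -/
def ordZ (h : IsUnifOf V ϖ) (x : Fˣ) : ℤ := (h.exists_zpow x).choose

theorem ordZ_spec (h : IsUnifOf V ϖ) (x : Fˣ) : x * (ϖ ^ ordZ h x)⁻¹ ∈ V.unitGroup :=
  (h.exists_zpow x).choose_spec

theorem ordZ_eq_iff (h : IsUnifOf V ϖ) (x : Fˣ) (n : ℤ) :
    ordZ h x = n ↔ x * (ϖ ^ n)⁻¹ ∈ V.unitGroup :=
  ⟨fun hn => hn ▸ ordZ_spec h x, fun hn => h.zpow_unique (ordZ_spec h x) hn⟩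

theorem ordZ_mul (h : IsUnifOf V ϖ) (x y : Fˣ) : ordZ h (x * y) = ordZ h x + ordZ h y := by
  rw [ordZ_eq_iff]
  have := mul_mem (ordZ_spec h x) (ordZ_spec h y)
  have e : x * y * (ϖ ^ (ordZ h x + ordZ h y))⁻¹ =
      x * (ϖ ^ ordZ h x)⁻¹ * (y * (ϖ ^ ordZ h y)⁻¹) := by
    rw [zpow_add, mul_inv]
    exact mul_mul_mul_comm x y _ _
  rw [e]
  exact this

theorem ordZ_one (h : IsUnifOf V ϖ) : ordZ h (1 : Fˣ) = 0 := by
  rw [ordZ_eq_iff]
  simp

theorem ordZ_inv (h : IsUnifOf V ϖ) (x : Fˣ) : ordZ h x⁻¹ = -ordZ h x := by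
  have := ordZ_mul h x x⁻¹
  rw [mul_inv_cancel, ordZ_one] at this
  omega

theorem ordZ_eq_zero_iff (h : IsUnifOf V ϖ) (x : Fˣ) : ordZ h x = 0 ↔ x ∈ V.unitGroup := by
  rw [ordZ_eq_iff]
  simp

theorem ordZ_unif (h : IsUnifOf V ϖ) : ordZ h ϖ = 1 := by
  rw [ordZ_eq_iff]
  simp

theorem ordZ_zpow (h : IsUnifOf V ϖ) (x : Fˣ) (n : ℤ) : ordZ h (x ^ n) = n * ordZ h x := by
  induction n using Int.induction_on with
  | zero => simp [ordZ_one]
  | succ k ih =>
    rw [zpow_add_one, ordZ_mul, ih]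
    ring
  | pred k ih =>
    rw [zpow_sub_one, ordZ_mul, ordZ_inv, ih]
    ring

theorem ordZ_pow (h : IsUnifOf V ϖ) (x : Fˣ) (n : ℕ) : ordZ h (x ^ n) = n * ordZ h x := by
  have := ordZ_zpow h x n
  simpa using this

/-- nonnegativity: `x ∈ V ↔ 0 ≤ ord x`. -/
theorem ordZ_nonneg_iff (h : IsUnifOf V ϖ) (x : Fˣ) : 0 ≤ ordZ h x ↔ (x : F) ∈ V := by
  constructor
  · intro hn
    have hs := ordZ_spec h x
    have hu : ((x * (ϖ ^ ordZ h x)⁻¹ : Fˣ) : F) ∈ V :=
      ((V.mem_unitGroup_iff _).mp hs).le |> (V.valuation_le_one_iff _).mp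
    have hϖ : ((ϖ ^ ordZ h x : Fˣ) : F) ∈ V := by
      obtain ⟨k, hk⟩ : ∃ k : ℕ, ordZ h x = k := ⟨(ordZ h x).toNat, by omega⟩
      rw [hk, zpow_natCast, Units.val_pow_eq_pow_val]
      exact pow_mem (V.nonunits_subset h.mem_nonunits) k
    have : (x : F) = ((x * (ϖ ^ ordZ h x)⁻¹ : Fˣ) : F) * ((ϖ ^ ordZ h x : Fˣ) : F) := by
      rw [← Units.val_mul]
      congr 1
      group
    rw [this]
    exact mul_mem hu hϖ
  · intro hx
    obtain ⟨n, hn⟩ := h.exists_pow x hx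
    have : ordZ h x = n := by
      rw [ordZ_eq_iff]
      simpa using hn
    omega

/-- the order as a group homomorphism. -/
def ordHom (h : IsUnifOf V ϖ) : Fˣ →* Multiplicative ℤ where
  toFun x := Multiplicative.ofAdd (ordZ h x)
  map_one' := by rw [ordZ_one]; rfl
  map_mul' x y := by rw [ordZ_mul]; rfl

@[simp] theorem ordHom_apply (h : IsUnifOf V ϖ) (x : Fˣ) :
    ordHom h x = Multiplicative.ofAdd (ordZ h x) := rfl

/-! ### Producing `IsUnifOf` from a DVR -/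

/-- a DVR valuation subring in which `ϖ` divides every nonunit has uniformiser `ϖ`. -/
theorem isUnifOf_of_dvr [IsDiscreteValuationRing V] (hϖ : (ϖ : F) ∈ V.nonunits)
    (hdvd : ∀ x ∈ V.nonunits, ∃ y ∈ V, x = (ϖ : F) * y) : IsUnifOf V ϖ := by
  refine ⟨hϖ, ?_⟩
  have hϖV : (ϖ : F) ∈ V := V.nonunits_subset hϖ
  set p : V := ⟨(ϖ : F), hϖV⟩ with hp
  have hpnu : ¬ IsUnit p := by
    intro hu
    have := (V.mem_nonunits_iff_exists_mem_maximalIdeal).mp hϖ
    obtain ⟨h1, h2⟩ := this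
    exact (IsLocalRing.mem_maximalIdeal _).mp h2 hu
  have hirr : Irreducible p := by
    rw [IsDiscreteValuationRing.irreducible_iff_uniformizer]
    apply le_antisymm
    · intro x hx
      have hxnu : (x : F) ∈ V.nonunits := by
        rw [V.mem_nonunits_iff_exists_mem_maximalIdeal]
        exact ⟨x.2, hx⟩
      obtain ⟨y, hy, hxy⟩ := hdvd _ hxnu
      rw [Ideal.mem_span_singleton']
      exact ⟨⟨y, hy⟩, Subtype.ext (by rw [hxy]; simp [hp, mul_comm])⟩
    · rw [Ideal.span_singleton_le_iff_mem, IsLocalRing.mem_maximalIdeal]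
      exact hpnu
  intro x hx
  have hx0 : (⟨(x : F), hx⟩ : V) ≠ 0 := fun h0 => x.ne_zero (congrArg Subtype.val h0)
  obtain ⟨n, u, hu⟩ := IsDiscreteValuationRing.eq_unit_mul_pow_irreducible hx0 hirr
  refine ⟨n, ?_⟩
  rw [V.mem_unitGroup_iff]
  have hval : (x : F) = (u : V) * (ϖ : F) ^ n := by
    have := congrArg Subtype.val hu
    simpa [hp] using this
  have huval : V.valuation ((u : V) : F) = 1 := (V.valuation_eq_one_iff _).mp u.isUnit
  rw [Units.val_mul, Units.val_inv_eq_inv_val, Units.val_pow_eq_pow_val, hval, mul_assoc,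
    mul_inv_cancel₀ (pow_ne_zero n ϖ.ne_zero), mul_one, huval]

end Fermat.Agent.GB.A3.OrdUnif
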