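/-
GATE-B (Ribet S38/S43) / CASE A node A3 (helper73), layer 2.

**The integer `ν(x) = ord_{w₂}(x) − ord_{w₁}(x)` on `K₀(X₀(N))ˣ`**, `q ∥ N`, `A | q`,
`K₀ = ℚ̄^{I_A}`: both Gauss valuations `w₁` (`RwK0 A N`) and `w₂ = w₁ ∘ W_q`
(`(redData2K0 A N h).Rw`) of `F₀ = K₀(X₀(N))` are DVRs with uniformiser `q` (GATE-L:
`GL/Val/GaussK0`, `GL/Val/SecondK0`), so `OrdUnif.ordZ` applies to both.

* `ord₁`, `ord₂ : F₀ˣ → ℤ`, `nu = ord₂ − ord₁`, `nuHom : F₀ˣ →* Multiplicative ℤ`;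
* `nu_const` : `ν` kills the constants `K₀ˣ`;
* `nu_wAut` : `ν (W_q x) = − ν x`;
* `nu_pow` : `ν (x ^ m) = m · ν x`;
* `nu_eq_iff` : `ν x = n ↔ ∃ a, x q^{-a} ∈ Rw₁ˣ ∧ x q^{-(a+n)} ∈ Rw₂ˣ`.
-/
import Fermat.Agent.GB.A3.OrdUnif
import Fermat.Agent.GL.Val.SecondK0

set_option autoImplicit false

noncomputable section

namespace Fermat.Agent.GB.A3.Nu

open HahnSeries ModularCurve IsLocalRing
open Fermat.Agent.GJ.J1 Fermat.Agent.GJ.J1.Val
open Fermat.Agent.GK.AL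
open Fermat.Agent.GL.Val.GaussK0 Fermat.Agent.GL.Val.SecondK0
open Fermat.Agent.GL.Local.InertiaField
open Fermat.Agent.Common_helper32
open Fermat.Agent.GB.A3.OrdUnif

variable (A : ValuationSubring Qb) (N : ℕ) [NeZero N] {q : ℕ} (h : ExactDvd q N)
variable (hq : q.Prime) (hA : (q : Qb) ∈ A.nonunits)

/-- `F₀ = K₀(X₀(N))`. -/
abbrev F0 : Type := modularFunctionFieldFullC (K0 A) N

/-- the constant `q` of `F₀`. -/
def qF : F0 A N := algebraMap (K0 A) (F0 A N) ((q0 A q : R0 A) : K0 A)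

include hq in
theorem q0_ne_zero : ((q0 A q : R0 A) : K0 A) ≠ 0 := by
  intro h0
  have := congrArg (ι0 A) h0
  rw [ι0_q0, map_zero] at this
  exact hq.ne_zero (by exact_mod_cast this)

include hq in
theorem qF_ne_zero : qF A N (q := q) ≠ 0 := by
  unfold qF
  rw [Ne, map_eq_zero_iff _ (algebraMap (K0 A) (F0 A N)).injective]
  exact q0_ne_zero A hq

/-- `q` as a unit of `F₀`. -/
def qU : (F0 A N)ˣ := Units.mk0 (qF A N (q := q)) (qF_ne_zero A N hq)

@[simp] theorem coe_qU : ((qU A N hq : (F0 A N)ˣ) : F0 A N) = qF A N (q := q) := rfl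

include hA in
theorem q0_mem_nonunits' : ((q0 A q : R0 A) : K0 A) ∈ (R0 A).nonunits := by
  rw [ValuationSubring.mem_nonunits_iff_or]
  by_cases h0 : ((q0 A q : R0 A) : K0 A) = 0
  · exact Or.inl h0
  · right
    intro hinv
    have h1 : (ι0 A ((q0 A q : R0 A) : K0 A))⁻¹ ∈ A := by
      rw [← map_inv₀]; exact hinv
    rw [ι0_q0] at h1
    rw [ValuationSubring.mem_nonunits_iff_or] at hA
    rcases hA with hA | hA
    · apply h0
      apply ι0_injective A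
      rw [ι0_q0, hA, map_zero]
    · exact hA h1

/-- a constant lies in the nonunits of a valuation ring `V` of `F₀` extending `R₀`. -/
theorem algebraMap_mem_nonunits {V : ValuationSubring (F0 A N)}
    (hV : ∀ a : K0 A, algebraMap (K0 A) (F0 A N) a ∈ V ↔ a ∈ R0 A) {a : K0 A}
    (ha : a ∈ (R0 A).nonunits) : algebraMap (K0 A) (F0 A N) a ∈ V.nonunits := by
  rw [ValuationSubring.mem_nonunits_iff_or] at ha ⊢
  rcases ha with h0 | h1
  · left; rw [h0, map_zero]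
  · right
    rw [← map_inv₀, hV]
    exact h1

include hq hA in
/-- `q` is a uniformiser of `w₁` over `K₀`. -/
theorem isUnifOf₁ : IsUnifOf (RwK0 A N) (qU A N hq) := by
  haveI := isDiscreteValuationRing_RwK0 A N hq hA
  refine isUnifOf_of_dvr ?_ ?_
  · exact algebraMap_mem_nonunits A N (fun a => algebraMap_mem_Rw_iff (hGF := _) a)
      (q0_mem_nonunits' A hA)
  · intro x hx
    exact exists_eq_q_mul₁ A N hq hA x hx

include hq hA in
/-- `q` is a uniformiser of `w₂` over `K₀`. -/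
theorem isUnifOf₂ : IsUnifOf (redData2K0 A N h).Rw (qU A N hq) := by
  haveI := isDiscreteValuationRing_Rw2K0 A N h hq hA
  refine isUnifOf_of_dvr ?_ ?_
  · exact algebraMap_mem_nonunits A N (fun a => ((redData2K0 A N h).mem_A_iff a).symm)
      (q0_mem_nonunits' A hA)
  · intro x hx
    exact exists_eq_q_mul₂ A N h hq hA x hx

/-- `ord_{w₁}`. -/
def ord₁ (x : (F0 A N)ˣ) : ℤ := ordZ (isUnifOf₁ A N hq hA) x

/-- `ord_{w₂}`. -/
def ord₂ (x : (F0 A N)ˣ) : ℤ := ordZ (isUnifOf₂ A N h hq hA) x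

/-- **`ν = ord_{w₂} − ord_{w₁}`**. -/
def nu (x : (F0 A N)ˣ) : ℤ := ord₂ A N h hq hA x - ord₁ A N hq hA x

theorem nu_mul (x y : (F0 A N)ˣ) : nu A N h hq hA (x * y) = nu A N h hq hA x + nu A N h hq hA y := by
  unfold nu ord₁ ord₂
  rw [ordZ_mul, ordZ_mul]
  ring

theorem nu_one : nu A N h hq hA 1 = 0 := by
  unfold nu ord₁ ord₂
  rw [ordZ_one, ordZ_one]
  ring

theorem nu_inv (x : (F0 A N)ˣ) : nu A N h hq hA x⁻¹ = - nu A N h hq hA x := by
  unfold nu ord₁ ord₂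
  rw [ordZ_inv, ordZ_inv]
  ring

theorem nu_div (x y : (F0 A N)ˣ) : nu A N h hq hA (x / y) = nu A N h hq hA x - nu A N h hq hA y := by
  rw [div_eq_mul_inv, nu_mul, nu_inv]
  ring

theorem nu_pow (x : (F0 A N)ˣ) (m : ℕ) : nu A N h hq hA (x ^ m) = m * nu A N h hq hA x := by
  unfold nu ord₁ ord₂
  rw [ordZ_pow, ordZ_pow]
  ring

/-- `ν` as a group homomorphism. -/
def nuHom : (F0 A N)ˣ →* Multiplicative ℤ where
  toFun x := Multiplicative.ofAdd (nu A N h hq hA x)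
  map_one' := by rw [nu_one]; rfl
  map_mul' x y := by rw [nu_mul]; rfl

/-- characterisation of `ν x = n`. -/
theorem nu_eq_iff (x : (F0 A N)ˣ) (n : ℤ) :
    nu A N h hq hA x = n ↔ ∃ a : ℤ, x * (qU A N hq ^ a)⁻¹ ∈ (RwK0 A N).unitGroup ∧
      x * (qU A N hq ^ (a + n))⁻¹ ∈ (redData2K0 A N h).Rw.unitGroup := by
  constructor
  · intro hn
    refine ⟨ord₁ A N hq hA x, ordZ_spec _ x, ?_⟩
    have : ord₁ A N hq hA x + n = ord₂ A N h hq hA x := by
      unfold nu at hn; omega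
    rw [this]
    exact ordZ_spec _ x
  · rintro ⟨a, h1, h2⟩
    have e1 : ord₁ A N hq hA x = a := (ordZ_eq_iff _ x a).mpr h1
    have e2 : ord₂ A N h hq hA x = a + n := (ordZ_eq_iff _ x (a + n)).mpr h2
    unfold nu
    omega

/-! ### constants -/

/-- the unit of `F₀` attached to a nonzero constant. -/
def constU (c : (K0 A)ˣ) : (F0 A N)ˣ := Units.map (algebraMap (K0 A) (F0 A N) : K0 A →* F0 A N) c

theorem coe_constU (c : (K0 A)ˣ) :
    ((constU A N c : (F0 A N)ˣ) : F0 A N) = algebraMap (K0 A) (F0 A N) (c : K0 A) := rfl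

/-- a constant which is a unit of `R₀` is a unit of every valuation ring of `F₀` extending `R₀`. -/
theorem constU_mem_unitGroup {V : ValuationSubring (F0 A N)}
    (hV : ∀ a : K0 A, algebraMap (K0 A) (F0 A N) a ∈ V ↔ a ∈ R0 A) {c : (K0 A)ˣ}
    (hc : (c : K0 A) ∈ R0 A) (hc' : ((c⁻¹ : (K0 A)ˣ) : K0 A) ∈ R0 A) :
    constU A N c ∈ V.unitGroup := by
  rw [V.mem_unitGroup_iff]
  apply le_antisymm
  · rw [V.valuation_le_one_iff, coe_constU, hV]
    exact hc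
  · have h1 : V.valuation ((constU A N c⁻¹ : (F0 A N)ˣ) : F0 A N) ≤ 1 := by
      rw [V.valuation_le_one_iff, coe_constU, hV]
      exact hc'
    have h2 : ((constU A N c⁻¹ : (F0 A N)ˣ) : F0 A N) =
        (((constU A N c : (F0 A N)ˣ) : F0 A N))⁻¹ := by
      rw [coe_constU, coe_constU, Units.val_inv_eq_inv_val, map_inv₀]
    rw [h2, map_inv₀] at h1
    have hpos : 0 < V.valuation ((constU A N c : (F0 A N)ˣ) : F0 A N) := by
      rw [Valuation.pos_iff]; exact (constU A N c).ne_zero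
    exact (inv_le_one₀ hpos).mp h1

include hq hA in
/-- every nonzero constant of `K₀` is `q ^ n` times a unit of `R₀`. -/
theorem exists_zpow_const (c : (K0 A)ˣ) :
    ∃ n : ℤ, ((c : K0 A) / ((q0 A q : R0 A) : K0 A) ^ n) ∈ R0 A ∧
      ((c : K0 A) / ((q0 A q : R0 A) : K0 A) ^ n)⁻¹ ∈ R0 A := by
  have hfix : ∀ σ ∈ A.inertiaSubgroupIn ℚ, σ (ι0 A (c : K0 A)) = ι0 A (c : K0 A) :=
    (mem_range_ι0_iff A _).mp ⟨_, rfl⟩
  have hne : ι0 A (c : K0 A) ≠ 0 := by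
    rw [Ne, map_eq_zero_iff _ (ι0_injective A)]
    exact c.ne_zero
  obtain ⟨n, h1, h2⟩ := exists_zpow_unit_of_fixed A hq hA (ι0 A (c : K0 A)) hne hfix
  refine ⟨n, ?_, ?_⟩
  · rw [mem_R0_iff, map_div₀, map_zpow₀, ι0_q0]
    exact h1
  · rw [mem_R0_iff, map_inv₀, map_div₀, map_zpow₀, ι0_q0]
    exact h2

include hq hA in
/-- **`ν` kills the constants.** -/
theorem nu_const (c : (K0 A)ˣ) : nu A N h hq hA (constU A N c) = 0 := by
  obtain ⟨n, h1, h2⟩ := exists_zpow_const A hq hA c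
  -- the unit `c / q^n` of `R₀`
  set e : (K0 A)ˣ := c * (Units.mk0 _ (q0_ne_zero A hq) ^ n)⁻¹ with he
  have hecoe : (e : K0 A) = (c : K0 A) / ((q0 A q : R0 A) : K0 A) ^ n := by
    rw [he, Units.val_mul, Units.val_inv_eq_inv_val, Units.val_zpow_eq_zpow_val, Units.val_mk0,
      div_eq_mul_inv]
  have hecoe' : ((e⁻¹ : (K0 A)ˣ) : K0 A) = ((c : K0 A) / ((q0 A q : R0 A) : K0 A) ^ n)⁻¹ := by
    rw [Units.val_inv_eq_inv_val, hecoe]
  have hmap : constU A N c * (qU A N hq ^ n)⁻¹ = constU A N e := by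
    apply Units.ext
    rw [Units.val_mul, Units.val_inv_eq_inv_val, Units.val_zpow_eq_zpow_val, coe_constU, coe_constU,
      coe_qU, hecoe, map_div₀, map_zpow₀, div_eq_mul_inv]
    rfl
  rw [nu_eq_iff]
  refine ⟨n, ?_, ?_⟩
  · rw [hmap]
    exact constU_mem_unitGroup A N (fun a => algebraMap_mem_Rw_iff (hGF := _) a)
      (hecoe ▸ h1) (hecoe' ▸ h2)
  · rw [add_zero, hmap]
    exact constU_mem_unitGroup A N (fun a => ((redData2K0 A N h).mem_A_iff a).symm)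
      (hecoe ▸ h1) (hecoe' ▸ h2)

/-! ### the Atkin–Lehner involution -/

/-- `W_q` on the units of `F₀`. -/
def wU (x : (F0 A N)ˣ) : (F0 A N)ˣ :=
  Units.map ((wAutK0 A N h : F0 A N ≃ₐ[K0 A] F0 A N) : F0 A N →* F0 A N) x

theorem coe_wU (x : (F0 A N)ˣ) : ((wU A N h x : (F0 A N)ˣ) : F0 A N) = wAutK0 A N h (x : F0 A N) :=
  rfl

theorem wU_wU (x : (F0 A N)ˣ) : wU A N h (wU A N h x) = x := by
  apply Units.ext
  rw [coe_wU, coe_wU, wAutK0_wAutK0]

theorem wU_mul (x y : (F0 A N)ˣ) : wU A N h (x * y) = wU A N h x * wU A N h y := map_mul _ x y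

theorem wU_inv (x : (F0 A N)ˣ) : wU A N h x⁻¹ = (wU A N h x)⁻¹ := map_inv _ x

theorem wU_qU_zpow (n : ℤ) : wU A N h (qU A N hq ^ n) = qU A N hq ^ n := by
  have h1 : wU A N h (qU A N hq) = qU A N hq := by
    apply Units.ext
    rw [coe_wU, coe_qU]
    exact AlgEquiv.commutes _ _
  unfold wU at h1 ⊢
  rw [map_zpow, h1]

/-- `x` is a unit for `w₂` iff `W_q x` is a unit for `w₁`. -/
theorem mem_unitGroup₂_iff (x : (F0 A N)ˣ) :
    x ∈ (redData2K0 A N h).Rw.unitGroup ↔ wU A N h x ∈ (RwK0 A N).unitGroup := by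
  rw [ValuationSubring.mem_unitGroup_iff, ValuationSubring.mem_unitGroup_iff]
  have key : ∀ y : F0 A N, (redData2K0 A N h).Rw.valuation y ≤ 1 ↔
      (RwK0 A N).valuation (wAutK0 A N h y) ≤ 1 := fun y => by
    rw [ValuationSubring.valuation_le_one_iff, ValuationSubring.valuation_le_one_iff]
    exact mem_Rw2K0_iff_wAutK0 A N h y
  have hx0 : (x : F0 A N) ≠ 0 := x.ne_zero
  have hw0 : wAutK0 A N h (x : F0 A N) ≠ 0 := (wU A N h x).ne_zero
  constructor
  · intro hx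
    apply le_antisymm
    · rw [coe_wU, ← key, hx]
    · have h1 : (redData2K0 A N h).Rw.valuation ((x : F0 A N))⁻¹ ≤ 1 := by
        rw [map_inv₀, hx, inv_one]
      rw [key, map_inv₀, map_inv₀] at h1
      have hpos : 0 < (RwK0 A N).valuation (wAutK0 A N h (x : F0 A N)) := by
        rw [Valuation.pos_iff]; exact hw0
      rw [coe_wU]
      exact (inv_le_one₀ hpos).mp h1
  · intro hx
    rw [coe_wU] at hx
    apply le_antisymm
    · rw [key, hx]
    · have h1 : (RwK0 A N).valuation (wAutK0 A N h ((x : F0 A N))⁻¹) ≤ 1 := by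
        rw [map_inv₀, map_inv₀, hx, inv_one]
      rw [← key, map_inv₀] at h1
      have hpos : 0 < (redData2K0 A N h).Rw.valuation (x : F0 A N) := by
        rw [Valuation.pos_iff]; exact hx0
      exact (inv_le_one₀ hpos).mp h1

theorem ord₂_eq_ord₁_wU (x : (F0 A N)ˣ) :
    ord₂ A N h hq hA x = ord₁ A N hq hA (wU A N h x) := by
  unfold ord₂
  rw [ordZ_eq_iff, mem_unitGroup₂_iff, wU_mul, wU_inv, wU_qU_zpow]
  exact ordZ_spec _ _

theorem ord₂_wU (x : (F0 A N)ˣ) :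
    ord₂ A N h hq hA (wU A N h x) = ord₁ A N hq hA x := by
  rw [ord₂_eq_ord₁_wU, wU_wU]

/-- **`ν (W_q x) = − ν x`.** -/
theorem nu_wU (x : (F0 A N)ˣ) : nu A N h hq hA (wU A N h x) = - nu A N h hq hA x := by
  unfold nu
  rw [ord₂_wU, ← ord₂_eq_ord₁_wU]
  ring

end Fermat.Agent.GB.A3.Nu
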