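/-
GATE-B (Ribet S38/S43) / CASE A node A3 (helper73), layer 3: **the obstruction, in the form (FP)
consumes** (`GB/A/FP.lean`, helper28).

`q ∥ M`, `A | q`, `K₀ = ℚ̄^{I_A}`, `F₀ = K₀(X₀(M)) ⊂ F_M`, `ν = ord_{w₂} − ord_{w₁}` on `F₀ˣ`
(`GB/A3/Nu.lean`).

* `ObZero y` : the class `y ∈ Kum_m(F_M)` has a `K₀`-RATIONAL representative `u₀ ∈ F₀ˣ` with
  `ν(u₀) = 0` (the two Gauss valuations agree on it);
* `normHyp : FP.NormHyp h A m ObZero` — **(A3, normalisation)**: such a class has an `I_A`-fixed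
  representative which is a unit for BOTH Gauss valuations (`u₀ q^{-ord₁ u₀}`; the constant
  `q^{-a}` is an `m`-th power in `ℚ̄`);
* `obZero_twist` — **(A3b, the Eisenstein twist)**: for EVERY `I_A`-invariant class `y` and every
  `ℓ` with the two function-level Hecke inputs (`T_ℓ` preserves the unit groups of `Rw₁`, `Rw₂`:
  helper19's `GB/A/HeckeW`), `ObZero ((T_ℓ − (ℓ+1)) y)`: a fixed representative `u` of `y`
  (A2, helper19) is `K₀`-rational (`F_M^{I_A} = F₀`, GATE-L), so is `T_ℓ u`, and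
  `ν(T_ℓ u₀) = (ℓ+1) ν(u₀)`, whence `ν (T_ℓ u₀ / u₀^{ℓ+1}) = 0` EXACTLY.  No well-definedness of
  `ν mod m` on classes is needed.
-/
import Fermat.Agent.GB.A3.Nu
import Fermat.Agent.GL.Red.RatLiftK0
import Fermat.Agent.GB.A.FP

set_option autoImplicit false

noncomputable section

namespace Fermat.Agent.GB.A3.Ob

open HahnSeries ModularCurve IsLocalRing AlgebraicCurve
open Fermat.Agent.S24 Fermat.Agent.GJ.J1 Fermat.Agent.GJ.J1.Val
open Fermat.Agent.GJ.KumGroup Fermat.Agent.GJ.Kum.KumType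
open Fermat.Agent.GK.UqKronecker Fermat.Agent.GK.AL Fermat.Agent.GK.SS
open Fermat.Agent.GL.Val.GaussK0 Fermat.Agent.GL.Val.SecondK0 Fermat.Agent.GL.RatLiftK0
open Fermat.Agent.GB.A.FP Fermat.Agent.GB.A3.Nu Fermat.Agent.GB.A3.OrdUnif

variable {M : ℕ} [NeZero M] {q : ℕ} (h : ExactDvd q M) (A : ValuationSubring Kb) (m : ℕ)
variable (hq : q.Prime) (hA : (q : Kb) ∈ A.nonunits)

/-! ### units of `F₀` inside the units of `F_M` -/

/-- the base extension `F₀ˣ → F_Mˣ`. -/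
def mapU : (F0 A M)ˣ →* (FK M)ˣ :=
  Units.map ((mapK0Bar A M : F0 A M →+* FN M) : F0 A M →* FK M)

theorem coe_mapU (x : (F0 A M)ˣ) :
    ((mapU (M := M) A x : (FK M)ˣ) : FK M) = mapK0Bar A M (x : F0 A M) := rfl

theorem mapU_injective : Function.Injective (mapU (M := M) A) := by
  intro x y hxy
  apply Units.ext
  apply mapK0Bar_injective A M
  rw [← coe_mapU, ← coe_mapU, hxy]

/-- the image of `F₀ˣ` is fixed by inertia. -/
theorem galUnits_mapU (σ : Kb ≃ₐ[ℚ] Kb) (hσ : σ ∈ A.inertiaSubgroupIn ℚ) (x : (F0 A M)ˣ) :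
    galUnits M σ (mapU (M := M) A x) = mapU (M := M) A x := by
  apply Units.ext
  rw [coe_galUnits, coe_mapU]
  exact galF_mapK0Bar A M σ hσ (x : F0 A M)

/-- **`F_M^{I_A} = F₀`, on units.** -/
theorem exists_mapU_of_fixed (u : (FK M)ˣ)
    (hu : ∀ σ ∈ A.inertiaSubgroupIn ℚ, galUnits M σ u = u) :
    ∃ u0 : (F0 A M)ˣ, mapU (M := M) A u0 = u := by
  obtain ⟨x0, hx0⟩ := exists_mapK0Bar_of_fixed A M (u : FK M)
    (fun σ hσ => congrArg Units.val (hu σ hσ))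
  have hne : x0 ≠ 0 := by
    rintro rfl
    rw [map_zero] at hx0
    exact u.ne_zero hx0.symm
  exact ⟨Units.mk0 x0 hne, Units.ext hx0⟩

/-- the constant `c ∈ ℚ̄ˣ` as a unit of `F_M`. -/
def constB (c : Kbˣ) : (FK M)ˣ := Units.map (algebraMap Kb (FK M) : Kb →* FK M) c

theorem coe_constB (c : Kbˣ) :
    ((constB (M := M) c : (FK M)ˣ) : FK M) = algebraMap Kb (FK M) (c : Kb) := rfl

/-- `q` as a unit of `ℚ̄`. -/
def qB : Kbˣ := Units.mk0 (q : Kb) (by exact_mod_cast hq.ne_zero)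

theorem mapU_qU : mapU (M := M) A (qU A M hq) = constB (M := M) (qB hq) := by
  apply Units.ext
  rw [coe_mapU, coe_qU, coe_constB]
  unfold qF
  rw [mapK0Bar_algebraMap, ι0_q0]
  rfl

/-! ### transfer of unit-ness between `F₀` and `F_M` -/

/-- `u` and `u⁻¹` both lie in the valuation ring `V`. -/
def UnitOf {F : Type*} [Field F] (V : ValuationSubring F) (u : Fˣ) : Prop :=
  (u : F) ∈ V ∧ ((u⁻¹ : Fˣ) : F) ∈ V

theorem unitOf_iff_mem_unitGroup {F : Type*} [Field F] (V : ValuationSubring F) (u : Fˣ) :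
    UnitOf V u ↔ u ∈ V.unitGroup := by
  rw [ValuationSubring.mem_unitGroup_iff]
  unfold UnitOf
  rw [← V.valuation_le_one_iff, ← V.valuation_le_one_iff, Units.val_inv_eq_inv_val, map_inv₀]
  have hpos : 0 < V.valuation (u : F) := by
    rw [Valuation.pos_iff]; exact u.ne_zero
  constructor
  · rintro ⟨h1, h2⟩
    exact le_antisymm h1 ((inv_le_one₀ hpos).mp h2)
  · intro h1
    rw [h1, inv_one]
    exact ⟨le_rfl, le_rfl⟩

theorem bothUnit_iff (u : (FK M)ˣ) :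
    BothUnit h A u ↔ UnitOf (redDataBar M A).Rw u ∧ UnitOf (redData2 M A h).Rw u := Iff.rfl

/-- transfer along `mapK0Bar` for a pair of compatible valuation rings. -/
theorem unitOf_mapU_iff {V0 : ValuationSubring (F0 A M)} {V : ValuationSubring (FK M)}
    (hV : ∀ x : F0 A M, x ∈ V0 ↔ mapK0Bar A M x ∈ V) (x : (F0 A M)ˣ) :
    UnitOf V (mapU (M := M) A x) ↔ x ∈ V0.unitGroup := by
  rw [← unitOf_iff_mem_unitGroup]
  unfold UnitOf
  rw [hV, hV, ← map_inv, coe_mapU, coe_mapU]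

theorem unitOf₁_mapU_iff (x : (F0 A M)ˣ) :
    UnitOf (redDataBar M A).Rw (mapU (M := M) A x) ↔ x ∈ (RwK0 A M).unitGroup :=
  unitOf_mapU_iff A (mem_Rw1K0_iff A M) x

theorem unitOf₂_mapU_iff (x : (F0 A M)ˣ) :
    UnitOf (redData2 M A h).Rw (mapU (M := M) A x) ↔ x ∈ (redData2K0 A M h).Rw.unitGroup :=
  unitOf_mapU_iff A (mem_Rw2K0_iff A M h) x

/-! ### the obstruction predicate -/

/-- **`ObZero y`**: the class `y` has a `K₀`-rational representative on which the two Gauss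
valuations agree. -/
def ObZero (y : Additive (Kum Kb (FK M) m)) : Prop :=
  ∃ (u : pDivUnits Kb (FK M) m) (u0 : (F0 A M)ˣ),
    Additive.ofMul (Kum.mk u) = y ∧ mapU (M := M) A u0 = (u : (FK M)ˣ) ∧
      nu A M h hq hA u0 = 0

/-- every constant of `ℚ̄` is an `m`-th power. -/
theorem exists_constB_pow [NeZero m] (c : Kbˣ) : ∃ w : (FK M)ˣ, w ^ m = constB (M := M) c := by
  obtain ⟨r, hr⟩ := IsAlgClosed.exists_pow_nat_eq (c : Kb) (NeZero.pos m)
  have hr0 : r ≠ 0 := by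
    rintro rfl
    rw [zero_pow (NeZero.ne m)] at hr
    exact c.ne_zero hr.symm
  refine ⟨constB (M := M) (Units.mk0 r hr0), ?_⟩
  apply Units.ext
  rw [Units.val_pow_eq_pow_val, coe_constB, coe_constB, Units.val_mk0, ← map_pow, hr]

/-- **(A3, normalisation)** — the `NormHyp` binder of `GB/A/FP.lean`. -/
theorem normHyp [NeZero m] : NormHyp h A m (ObZero h A m hq hA) := by
  rintro y - ⟨u, u0, hy, hu, hnu⟩
  -- `a = ord₁ u₀ = ord₂ u₀`
  have h1 : u0 * (qU A M hq ^ ord₁ A M hq hA u0)⁻¹ ∈ (RwK0 A M).unitGroup :=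
    ordZ_spec (isUnifOf₁ A M hq hA) u0
  have h2 : u0 * (qU A M hq ^ ord₁ A M hq hA u0)⁻¹ ∈ (redData2K0 A M h).Rw.unitGroup := by
    have e : ord₂ A M h hq hA u0 = ord₁ A M hq hA u0 := by
      unfold nu at hnu; omega
    rw [← e]
    exact ordZ_spec (isUnifOf₂ A M h hq hA) u0
  -- the constant `q^{-a}` is an `m`-th power
  obtain ⟨w, hw⟩ := exists_constB_pow (M := M) m ((qB hq ^ ord₁ A M hq hA u0)⁻¹)
  have he : mapU (M := M) A (u0 * (qU A M hq ^ ord₁ A M hq hA u0)⁻¹) = (u : (FK M)ˣ) * w ^ m := by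
    rw [map_mul, map_inv, map_zpow, mapU_qU, hu, hw]
    unfold constB
    rw [map_inv, map_zpow]
  refine ⟨⟨(u : (FK M)ˣ) * w ^ m, mul_mem u.2 (pow_mem_pDivUnits Kb (FK M) m w)⟩, ⟨?_, ?_⟩, ?_⟩
  · rw [← hy]
    exact (ofMul_mk_eq_of w rfl).symm
  · intro σ hσ
    show galUnits M σ ((u : (FK M)ˣ) * w ^ m) = (u : (FK M)ˣ) * w ^ m
    rw [← he]
    exact galUnits_mapU A σ hσ _
  · show BothUnit h A ((u : (FK M)ˣ) * w ^ m)
    rw [← he, bothUnit_iff]
    exact ⟨(unitOf₁_mapU_iff A _).mpr h1, (unitOf₂_mapU_iff h A _).mpr h2⟩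

/-! ### the Eisenstein twist -/

section Twist

variable {ℓ : ℕ} [NeZero ℓ] (hM : HNMemHyp M ℓ)

/-- `T_ℓ` of a constant. -/
theorem heckeUnits_constB (c : Kbˣ) :
    heckeUnits hM (constB (M := M) c) = constB (M := M) (c ^ (ℓ + 1)) := by
  refine Units.ext (Subtype.ext ?_)
  show heckeNormSeries ℓ ((algebraMap Kb (FK M) (c : Kb) : FK M) : LaurentSeries Kb) =
    ((algebraMap Kb (FK M) ((c ^ (ℓ + 1) : Kbˣ) : Kb) : FK M) : LaurentSeries Kb)
  have e : ∀ d : Kb, ((algebraMap Kb (FK M) d : FK M) : LaurentSeries Kb) =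
      HahnSeries.single 0 d := fun d => algebraMap_laurentSeries_eq_single Kb d
  rw [e, e, Units.val_pow_eq_pow_val, heckeNormSeries_eq]
  have h1 := Fermat.Agent.GJ.Kum.heckeNorm_C (R := Kb) ℓ (c : Kb)
  rwa [HahnSeries.C_apply, HahnSeries.C_apply] at h1

/-- `T_ℓ` of an inertia-fixed unit is inertia-fixed. -/
theorem heckeUnits_fixed (u : (FK M)ˣ)
    (hu : ∀ σ ∈ A.inertiaSubgroupIn ℚ, galUnits M σ u = u) :
    ∀ σ ∈ A.inertiaSubgroupIn ℚ, galUnits M σ (heckeUnits hM u) = heckeUnits hM u := by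
  intro σ hσ
  rw [← heckeUnits_galUnits, hu σ hσ]

/-- **`ord (T_ℓ u₀) = (ℓ+1) · ord u₀`** for a pair of compatible valuation rings of `F₀ ⊂ F_M` with
uniformiser `q`, as soon as `T_ℓ` preserves the units of the big one. -/
theorem ordZ_hecke {V0 : ValuationSubring (F0 A M)} {V : ValuationSubring (FK M)}
    (hV : ∀ x : F0 A M, x ∈ V0 ↔ mapK0Bar A M x ∈ V) (hϖ : IsUnifOf V0 (qU A M hq))
    (hT : ∀ u : (FK M)ˣ, UnitOf V u → UnitOf V (heckeUnits hM u))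
    (u0 v0 : (F0 A M)ˣ) (hv : mapU (M := M) A v0 = heckeUnits hM (mapU (M := M) A u0)) :
    ordZ hϖ v0 = (ℓ + 1 : ℕ) * ordZ hϖ u0 := by
  rw [ordZ_eq_iff]
  have h1 : u0 * (qU A M hq ^ ordZ hϖ u0)⁻¹ ∈ V0.unitGroup := ordZ_spec hϖ u0
  have h2 := hT _ ((unitOf_mapU_iff A hV _).mpr h1)
  have e : heckeUnits hM (mapU (M := M) A (u0 * (qU A M hq ^ ordZ hϖ u0)⁻¹)) =
      mapU (M := M) A (v0 * (qU A M hq ^ (((ℓ + 1 : ℕ) : ℤ) * ordZ hϖ u0))⁻¹) := by
    rw [map_mul, map_mul, map_inv, map_inv, map_zpow, map_zpow, map_mul, map_inv, map_zpow,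
      mapU_qU, heckeUnits_constB, hv, zpow_mul, zpow_natCast]
    unfold constB
    rw [map_pow]
  rw [e] at h2
  exact (unitOf_mapU_iff A hV _).mp h2

variable (hT₁ : ∀ u : (FK M)ˣ, UnitOf (redDataBar M A).Rw u →
    UnitOf (redDataBar M A).Rw (heckeUnits hM u))
variable (hT₂ : ∀ u : (FK M)ˣ, UnitOf (redData2 M A h).Rw u →
    UnitOf (redData2 M A h).Rw (heckeUnits hM u))

include hT₁ hT₂ in
/-- **`ν (T_ℓ u₀) = (ℓ+1) · ν u₀`.** -/
theorem nu_hecke (u0 v0 : (F0 A M)ˣ)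
    (hv : mapU (M := M) A v0 = heckeUnits hM (mapU (M := M) A u0)) :
    nu A M h hq hA v0 = (ℓ + 1 : ℕ) * nu A M h hq hA u0 := by
  unfold nu ord₁ ord₂
  rw [ordZ_hecke A hq hM (mem_Rw1K0_iff A M) (isUnifOf₁ A M hq hA) hT₁ u0 v0 hv,
    ordZ_hecke A hq hM (mem_Rw2K0_iff A M h) (isUnifOf₂ A M h hq hA) hT₂ u0 v0 hv]
  ring

variable (hD : HNDivHyp M m ℓ)

include hT₁ hT₂ in
/-- **(A3b, the Eisenstein twist kills the obstruction)**: for every `I_A`-invariant class `y`,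
`ObZero (T_ℓ y − (ℓ+1) y)`. -/
theorem obZero_twist [NeZero m] (y : Additive (Kum Kb (FK M) m))
    (hy : y ∈ invSub (M := M) A m) :
    ObZero h A m hq hA (TEnd hM hD y - (ℓ + 1) • y) := by
  obtain ⟨u, rfl, hfix⟩ := exists_fixedRep A m y hy
  obtain ⟨u0, hu0⟩ := exists_mapU_of_fixed A (u : (FK M)ˣ) hfix
  obtain ⟨v0, hv0⟩ := exists_mapU_of_fixed A (heckeUnits hM (u : (FK M)ˣ))
    (heckeUnits_fixed A hM _ hfix)
  refine ⟨⟨heckeUnits hM u, heckeUnits_mem hM hD u u.2⟩ * (u ^ (ℓ + 1))⁻¹,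
    v0 * (u0 ^ (ℓ + 1))⁻¹, ?_, ?_, ?_⟩
  · rw [TEnd_mk, map_mul, map_inv, map_pow, ofMul_mul, ofMul_inv, ofMul_pow, sub_eq_add_neg]
  · rw [map_mul, map_inv, map_pow, hv0, hu0]
    rfl
  · rw [nu_mul, nu_inv, nu_pow,
      nu_hecke h A hq hA hM hT₁ hT₂ u0 v0 (by rw [hv0, hu0])]
    push_cast
    ring

/-- the Eisenstein twist `T_ℓ − (ℓ+1)` as an endomorphism of `Kum_m(F_M)`. -/
def eisTwist : Module.End (ZMod m) (Additive (Kum Kb (FK M) m)) :=
  TEnd hM hD - ((ℓ + 1 : ℕ) : ZMod m) • (1 : Module.End (ZMod m) (Additive (Kum Kb (FK M) m)))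

theorem eisTwist_apply (y : Additive (Kum Kb (FK M) m)) :
    eisTwist m hM hD y = TEnd hM hD y - (ℓ + 1) • y := by
  unfold eisTwist
  rw [LinearMap.sub_apply, LinearMap.smul_apply, Module.End.one_apply, Nat.cast_smul_eq_nsmul]

include hT₁ hT₂ in
/-- **the `hE` binder of `FP.fp_of_twist` / `FP.fp_submodule` / `FP.le_toric`** for
`E = T_ℓ − (ℓ+1)`. -/
theorem obZero_eisTwist [NeZero m] :
    ∀ y ∈ invSub (M := M) A m, ObZero h A m hq hA (eisTwist m hM hD y) := by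
  intro y hy
  rw [eisTwist_apply]
  exact obZero_twist h A m hq hA hM hT₁ hT₂ hD y hy

end Twist

end Fermat.Agent.GB.A3.Ob
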