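/-
GATE-B (Ribet S38/S43) / CASE A node A3 (helper73), layer 4: **the closed A3 exports** — the
hypothesis-form `GB/A3/Ob.lean` with helper19's function-level Hecke inputs (`GB/A/HeckeW/Units`:
`T_ℓ` preserves the unit groups of both Gauss valuation rings) plugged in.

For `q ∥ M`, `A | q`, `m ≠ 0`, `ℓ ∤ M` prime:

* `normHyp'        : FP.NormHyp h A m (ObZero h A m hq hA)`                      (re-export)
* `obZero_eisTwist : ∀ y ∈ FP.invSub A m, ObZero h A m hq hA (eisTwist m hM hD y)`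
  with `eisTwist m hM hD = T_ℓ − (ℓ+1)` — the `hE` binder of `FP.fp_of_twist/fp_submodule/le_toric`;
* `le_toric`       : the plug into `FP.le_toric` (only A4 `NodeHyp` and A5 `AbHyp` remain).
-/
import Fermat.Agent.GB.A3.Ob
import Fermat.Agent.GB.A.HeckeW.Units

set_option autoImplicit false

noncomputable section

namespace Fermat.Agent.GB.A3.ObHecke

open ModularCurve IsLocalRing AlgebraicCurve
open Fermat.Agent.S24 Fermat.Agent.GJ.J1 Fermat.Agent.GJ.J1.Val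
open Fermat.Agent.GJ.KumGroup Fermat.Agent.GJ.Kum.KumType
open Fermat.Agent.GK.UqKronecker Fermat.Agent.GK.AL Fermat.Agent.GK.SS
open Fermat.Agent.GB.A.FP Fermat.Agent.GB.A.HeckeW Fermat.Agent.GB.A3.Ob

variable {M : ℕ} [NeZero M] {q : ℕ} (h : ExactDvd q M) (A : ValuationSubring Kb) (m : ℕ) [NeZero m]
variable (hq : q.Prime) (hA : (q : Kb) ∈ A.nonunits)

/-- **(A3, normalisation)** — re-export of `Ob.normHyp`. -/
theorem normHyp' : NormHyp h A m (ObZero h A m hq hA) := normHyp h A m hq hA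

variable {ℓ : ℕ} [Fact ℓ.Prime] [NeZero ℓ] (hℓM : ¬ ℓ ∣ M) (hM : HNMemHyp M ℓ)
  (hD : HNDivHyp M m ℓ)

include hℓM in
/-- **`ν (T_ℓ u₀) = (ℓ+1) ν (u₀)`**, closed form. -/
theorem nu_heckeUnits (u0 v0 : (Nu.F0 A M)ˣ)
    (hv : mapU (M := M) A v0 = heckeUnits hM (mapU (M := M) A u0)) :
    Nu.nu A M h hq hA v0 = (ℓ + 1 : ℕ) * Nu.nu A M h hq hA u0 :=
  nu_hecke h A hq hA hM
    (fun _ hu => heckeUnits_mem_unitGroup₁ A hM hu.1 hu.2)
    (fun _ hu => heckeUnits_mem_unitGroup₂ A h hℓM hM hu.1 hu.2) u0 v0 hv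

include hℓM in
/-- **(A3b)**: the Eisenstein twist `T_ℓ − (ℓ+1)` kills the obstruction on the inertia-invariant
classes — the `hE` binder of `FP.fp_of_twist`, `FP.fp_submodule`, `FP.le_toric`. -/
theorem obZero_eisTwist :
    ∀ y ∈ invSub (M := M) A m, ObZero h A m hq hA (eisTwist m hM hD y) :=
  Ob.obZero_eisTwist h A m hq hA hM
    (fun _ hu => heckeUnits_mem_unitGroup₁ A hM hu.1 hu.2)
    (fun _ hu => heckeUnits_mem_unitGroup₂ A h hℓM hM hu.1 hu.2) hD

include hℓM hq hA in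
/-- **the plug into `FP.le_toric`**: with A3 discharged, a submodule `Y ≤ V^{I_A}` on which
`T_ℓ − (ℓ+1)` and the old-killer `t` are surjective lies in the toric part `K₁ ⊓ K₂`; only A4
(`NodeHyp`) and A5 (`AbHyp`) remain as inputs. -/
theorem le_toric {t : Module.End (ZMod m) (Additive (Kum Kb (FK M) m))}
    (hA4 : NodeHyp h A m) (hA5 : AbHyp h A m t)
    (Y : Submodule (ZMod m) (Additive (Kum Kb (FK M) m))) (hYI : Y ≤ invSub (M := M) A m)
    (hEY : ∀ y ∈ Y, ∃ y' ∈ Y, eisTwist m hM hD y' = y) (htY : ∀ y ∈ Y, ∃ y' ∈ Y, t y' = y) :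
    ∀ y ∈ Y, y ∈ kerRed M A m ⊓ kerRed₂ h A m :=
  Fermat.Agent.GB.A.FP.le_toric (normHyp h A m hq hA) hA4 hA5
    (obZero_eisTwist h A m hq hA hℓM hM hD) Y hYI hEY htY

end Fermat.Agent.GB.A3.ObHecke
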