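/-
GATE-Z / LOCP (b') support (helper73), Mathlib-only.

**An ideal of eigen-relations maps `Y` into `T`.**  `ψ : ℤ[X_i] →+* End_R V` a ring homomorphism,
`a : ι → ℤ` an "eigensystem", `Y, T` submodules of `V` with
`(ψ X_i − a_i) Y ⊆ T` and `ψ(X_i) T ⊆ T` for every `i`.  Then `(ψ g − g(a)) Y ⊆ T` for every
polynomial `g`; in particular `ψ g` maps `Y` into `T` for every `g` in the kernel of the evaluation
at `a`, and if `ψ f` is multiplication by an integer `n` for such an `f`, then `n • Y ⊆ T`.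
-/
import Mathlib

set_option autoImplicit false

namespace Fermat.Agent.GB.A3.EigenIdealAct

open MvPolynomial

variable {ι R V : Type*} [CommRing R] [AddCommGroup V] [Module R V]
  (ψ : MvPolynomial ι ℤ →+* Module.End R V) (a : ι → ℤ) (Y T : Submodule R V)

theorem psi_C (c : ℤ) (x : V) : ψ (C c) x = c • x := by
  have h1 : ψ (C c) = (c : Module.End R V) := by
    rw [← MvPolynomial.algebraMap_eq, eq_intCast, map_intCast]
  rw [h1, Module.End.intCast_apply]

/-- `T` is stable under `ψ g` for every polynomial `g`, as soon as it is under every `ψ X_i`. -/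
theorem stable_of_gens (hT : ∀ i, ∀ x ∈ T, ψ (X i) x ∈ T) (g : MvPolynomial ι ℤ) :
    ∀ x ∈ T, ψ g x ∈ T := by
  induction g using MvPolynomial.induction_on with
  | C c =>
    intro x hx
    rw [psi_C]
    exact T.toAddSubgroup.zsmul_mem hx c
  | add p r hp hr =>
    intro x hx
    rw [map_add, LinearMap.add_apply]
    exact T.add_mem (hp x hx) (hr x hx)
  | mul_X p i hp =>
    intro x hx
    rw [map_mul, Module.End.mul_apply]
    exact hp _ (hT i x hx)

/-- `(ψ g − g(a)) Y ⊆ T`. -/
theorem sub_eval_mem (hT : ∀ i, ∀ x ∈ T, ψ (X i) x ∈ T)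
    (hY : ∀ i, ∀ y ∈ Y, ψ (X i) y - a i • y ∈ T) (g : MvPolynomial ι ℤ) :
    ∀ y ∈ Y, ψ g y - (aeval a g : ℤ) • y ∈ T := by
  induction g using MvPolynomial.induction_on with
  | C c =>
    intro y _
    rw [psi_C, aeval_C]
    simp
  | add p r hp hr =>
    intro y hy
    have e : ψ (p + r) y - (aeval a (p + r) : ℤ) • y =
        (ψ p y - (aeval a p : ℤ) • y) + (ψ r y - (aeval a r : ℤ) • y) := by
      rw [map_add, map_add, LinearMap.add_apply, add_smul]
      abel
    rw [e]
    exact T.add_mem (hp y hy) (hr y hy)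
  | mul_X p i hp =>
    intro y hy
    have e : ψ (p * X i) y - (aeval a (p * X i) : ℤ) • y =
        ψ p (ψ (X i) y - a i • y) + a i • (ψ p y - (aeval a p : ℤ) • y) := by
      rw [map_mul, map_mul, aeval_X, Module.End.mul_apply, map_sub, map_zsmul, smul_sub, smul_smul,
        mul_comm (a i)]
      abel
    rw [e]
    exact T.add_mem (stable_of_gens ψ T hT p _ (hY i y hy))
      (T.toAddSubgroup.zsmul_mem (hp y hy) _)

/-- `ψ g` maps `Y` into `T` for `g` in the kernel of the evaluation at `a`. -/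
theorem mem_of_aeval_eq_zero (hT : ∀ i, ∀ x ∈ T, ψ (X i) x ∈ T)
    (hY : ∀ i, ∀ y ∈ Y, ψ (X i) y - a i • y ∈ T) {g : MvPolynomial ι ℤ}
    (hg : aeval a g = (0 : ℤ)) : ∀ y ∈ Y, ψ g y ∈ T := by
  intro y hy
  have := sub_eval_mem ψ a Y T hT hY g y hy
  rwa [hg, zero_smul, sub_zero] at this

/-- **an integer in the image of the ideal of eigen-relations multiplies `Y` into `T`.** -/
theorem nsmul_mem_of_mem_ker (hT : ∀ i, ∀ x ∈ T, ψ (X i) x ∈ T)
    (hY : ∀ i, ∀ y ∈ Y, ψ (X i) y - a i • y ∈ T) {n : ℕ} {f : MvPolynomial ι ℤ}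
    (hf : aeval a f = (0 : ℤ)) (hn : ψ f = (n : Module.End R V)) : ∀ y ∈ Y, n • y ∈ T := by
  intro y hy
  have h1 := mem_of_aeval_eq_zero ψ a Y T hT hY hf y hy
  rwa [hn, Module.End.natCast_apply] at h1

/-- the submodule `{x | c • x ∈ T}`. -/
def divSub (c : ℕ) : Submodule R V where
  carrier := {x | c • x ∈ T}
  zero_mem' := by simp
  add_mem' := by
    intro x y hx hy
    show c • (x + y) ∈ T
    rw [smul_add]
    exact T.add_mem hx hy
  smul_mem' := by
    intro r x hx
    show c • (r • x) ∈ T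
    rw [smul_comm]
    exact T.smul_mem r hx

theorem mem_divSub {c : ℕ} {x : V} : x ∈ divSub T c ↔ c • x ∈ T := Iff.rfl

/-- `divSub T c` is stable under every linear endomorphism preserving `T`. -/
theorem divSub_stable {c : ℕ} {t : Module.End R V} (ht : ∀ x ∈ T, t x ∈ T) :
    ∀ x ∈ divSub T c, t x ∈ divSub T c := by
  intro x hx
  rw [mem_divSub] at hx ⊢
  rw [← map_nsmul]
  exact ht _ hx

end Fermat.Agent.GB.A3.EigenIdealAct
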