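/-
GATE-B CASE A node A3 (helper73), layer 5 — consumer: GATE-Z / LOCP (b').

**The Atkin–Lehner twist kills the obstruction**: for `q ∥ M`, `A | q` and every `I_A`-invariant
class `y ∈ Kum_m(F_M)`,
  `ObZero (W_q y + y)`
(`ν (W_q u₀) = − ν (u₀)`, `GB/A3/Nu.nu_wU`; `W_q` preserves `K₀`-rationality,
`GL/Val/SecondK0.mapK0Bar_wAutK0`).  On the `q`-new part `U_q = − W_q`, so this is the statement
"`U_q − 1` kills the obstruction", the generator at `q` of the Eisenstein ideal.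
-/
import Fermat.Agent.GB.A3.Ob

set_option autoImplicit false

noncomputable section

namespace Fermat.Agent.GB.A3.ObW

open ModularCurve IsLocalRing AlgebraicCurve
open Fermat.Agent.S24 Fermat.Agent.GJ.J1 Fermat.Agent.GJ.J1.Val
open Fermat.Agent.GJ.KumGroup Fermat.Agent.GJ.Kum.KumType
open Fermat.Agent.GK.UqKronecker Fermat.Agent.GK.AL Fermat.Agent.GK.SS
open Fermat.Agent.GL.Val.GaussK0 Fermat.Agent.GL.Val.SecondK0 Fermat.Agent.GL.RatLiftK0
open Fermat.Agent.GB.A.FP Fermat.Agent.GB.A3.Nu Fermat.Agent.GB.A3.Ob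

variable {M : ℕ} [NeZero M] {q : ℕ} (h : ExactDvd q M) (A : ValuationSubring Kb) (m : ℕ)
variable (hq : q.Prime) (hA : (q : Kb) ∈ A.nonunits)

/-- `W_q` commutes with the base extension `F₀ˣ → F_Mˣ`. -/
theorem mapU_wU (x : (F0 A M)ˣ) :
    mapU (M := M) A (wU A M h x) = autUnits (wAut h) (mapU (M := M) A x) :=
  Units.ext (mapK0Bar_wAutK0 A M h (x : F0 A M))

/-- **the Atkin–Lehner twist `W_q + 1` kills the obstruction** on the inertia-invariant classes. -/
theorem obZero_wTwist [NeZero m] (y : Additive (Kum Kb (FK M) m))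
    (hy : y ∈ invSub (M := M) A m) :
    ObZero h A m hq hA (autEnd (wAut h) m y + y) := by
  obtain ⟨u, rfl, hfix⟩ := exists_fixedRep A m y hy
  obtain ⟨u0, hu0⟩ := exists_mapU_of_fixed A (u : (FK M)ˣ) hfix
  have hmem : autUnits (wAut h) (u : (FK M)ˣ) ∈ pDivUnits Kb (FK M) m :=
    autUnits_mem (wAut h) m u u.2
  refine ⟨⟨autUnits (wAut h) u, hmem⟩ * u, wU A M h u0 * u0, ?_, ?_, ?_⟩
  · rw [autEnd_mk, map_mul, ofMul_mul]
  · rw [map_mul, mapU_wU, hu0]
    rfl
  · rw [nu_mul, nu_wU]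
    ring

end Fermat.Agent.GB.A3.ObW
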