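/-
GATE-Z / LOCP (b') = BOB, route H (helper73): **the inertia-invariant classes modulo the toric part
are killed by the Eisenstein ideal of the full Hecke algebra.**

`q ∥ M`, `A | q`, `Y := FP.invSub A m` (the `I_A`-invariant classes of `Kum_m(F_M)`),
`T := kerRed M A m ⊓ kerRed₂ h A m` (the toric part).  Inputs:

* `ChainHyp h A m c` : the FP chain in `c`-form — an `I_A`-fixed `m`-divisible unit, unit for both
  Gauss valuations, has `c • [u] ∈ T`   (= NODE36 ∘ A5P, `c = 36`; or `nodeHyp_all ∘ A5`, `c = 1`);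
* A3 (on main): `Ob.normHyp`, `ObHecke.obZero_eisTwist`, `ObW.obZero_wTwist`.

Outputs:

* `eisTwist_mem`, `wTwist_mem` : `c • (T_ℓ y − (ℓ+1) y) ∈ T`, `c • (W_q y + y) ∈ T` for `y ∈ Y`;
* `kumTl_mem_toric`, `wAut_mem_toric` : (H3) the toric part is stable under every `T_ℓ` (`ℓ ∤ M`,
  NO condition `ℓ ∤ m`: exact commutation `T_ℓ W_q = W_q T_ℓ` of helper19's `GB/A/HeckeW`) and `W_q`;
* **`eis_nsmul_mem`** : for a ring homomorphism `ψ : ℤ[X_ℓ] → End (Kum_m(F_M))` with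
  `ψ X_ℓ = T_ℓ` (`ℓ ∤ M`) and `ψ X_ℓ = − W_q` (`ℓ ∣ M`), and a polynomial `f` killed by the Eisenstein
  system of level `M` with `ψ f = n`:  `(c * n) • Y ⊆ T`.
  (At `M = p`: `ψ = kumHecke p ∅ ∘ heckeEvalForms p 2`, `U_p = − W_p` since every class is new, and
  `n = eisensteinNumerator p` by S16.)
-/
import Fermat.Agent.GB.A3.ObW
import Fermat.Agent.GB.A3.ObHecke
import Fermat.Agent.GB.A3.EigenIdealAdd
import Fermat.Agent.GB.A.A5.HeckeKerRed
import Fermat.Prelude.Def_HeckeGalois_EichlerShimura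

set_option autoImplicit false

noncomputable section

namespace Fermat.Agent.GB.A3.EisKill

open ModularCurve IsLocalRing AlgebraicCurve
open Fermat.Agent.S24 Fermat.Agent.GJ.J1 Fermat.Agent.GJ.J1.Val
open Fermat.Agent.GJ.KumGroup Fermat.Agent.GJ.Kum.KumType
open Fermat.Agent.GK.UqKronecker Fermat.Agent.GK.AL Fermat.Agent.GK.SS Fermat.Agent.GK.UQ
open Fermat.Agent.GB.A.FP Fermat.Agent.GB.A.HeckeW Fermat.Agent.GB.A.A5.HeckeKerRed
open Fermat.Agent.GB.A3.Ob Fermat.Agent.GB.A3.ObW Fermat.Agent.GB.A3.EigenIdealAdd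

variable {M : ℕ} [NeZero M] {q : ℕ} (h : ExactDvd q M) (A : ValuationSubring Kb) (m : ℕ) [NeZero m]
variable (hq : q.Prime) (hA : (q : Kb) ∈ A.nonunits) (c : ℕ)

/-- **the FP chain in `c`-form**: an `I_A`-fixed `m`-divisible unit which is a unit for both Gauss
valuations has `c • [u]` in the toric part. -/
def ChainHyp : Prop :=
  ∀ u : pDivUnits Kb (FK M) m,
    (∀ σ ∈ A.inertiaSubgroupIn ℚ, galUnits M σ (u : (FK M)ˣ) = (u : (FK M)ˣ)) →
    BothUnit h A (u : (FK M)ˣ) →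
      c • (Additive.ofMul (Kum.mk u) : Additive (Kum Kb (FK M) m)) ∈
        kerRed M A m ⊓ kerRed₂ h A m

variable {h A m c}

include hq hA in
/-- an invariant class with vanishing obstruction is `c`-torsion modulo the toric part. -/
theorem nsmul_mem_of_obZero (hC : ChainHyp h A m c) {y : Additive (Kum Kb (FK M) m)}
    (hy : y ∈ invSub (M := M) A m) (hob : ObZero h A m hq hA y) :
    c • y ∈ kerRed M A m ⊓ kerRed₂ h A m := by
  obtain ⟨u, ⟨rfl, hfix⟩, hu⟩ := normHyp h A m hq hA y hy hob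
  exact hC u hfix hu

/-! ### invariance of the twists -/

omit [NeZero M] [NeZero m] in
theorem TEnd_mem_invSub {ℓ : ℕ} [NeZero ℓ] (hM : HNMemHyp M ℓ) (hD : HNDivHyp M m ℓ)
    {y : Additive (Kum Kb (FK M) m)} (hy : y ∈ invSub (M := M) A m) :
    TEnd hM hD y ∈ invSub (M := M) A m := by
  intro σ hσ
  have h1 := LinearMap.congr_fun (TEnd_comm_gal hM hD σ) y
  rw [Module.End.mul_apply, Module.End.mul_apply, hy σ hσ] at h1
  exact h1.symm

omit [NeZero m] in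
theorem wAut_mem_invSub {y : Additive (Kum Kb (FK M) m)} (hy : y ∈ invSub (M := M) A m) :
    autEnd (wAut h) m y ∈ invSub (M := M) A m := by
  intro σ hσ
  rw [← autEnd_comm_gal (wAut h) (wAut_comm_gal h σ) m y, hy σ hσ]

/-! ### the two families of Eisenstein relations -/

include hq hA in
/-- `c • (T_ℓ y − (ℓ+1) y) ∈ T` for `y` invariant, `ℓ ∤ M` prime. -/
theorem eisTwist_mem (hC : ChainHyp h A m c) {ℓ : ℕ} (hℓ : ℓ.Prime) (hℓM : ¬ ℓ ∣ M)
    {y : Additive (Kum Kb (FK M) m)} (hy : y ∈ invSub (M := M) A m) :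
    c • (kumTl M m hℓ hℓM y - (ℓ + 1) • y) ∈ kerRed M A m ⊓ kerRed₂ h A m := by
  have : Fact ℓ.Prime := ⟨hℓ⟩
  have : NeZero ℓ := ⟨hℓ.ne_zero⟩
  have hM : HNMemHyp M ℓ := Fermat.Agent.GJ.Kum.KumGate.hnMemHyp M hℓ hℓM
  have hD : HNDivHyp M m ℓ := Fermat.Agent.GJ.Kum.KumGate.hnDivHyp M m hℓ hℓM
  have hob : ObZero h A m hq hA (TEnd hM hD y - (ℓ + 1) • y) := by
    rw [← eisTwist_apply]
    exact Fermat.Agent.GB.A3.ObHecke.obZero_eisTwist h A m hq hA hℓM hM hD y hy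
  refine nsmul_mem_of_obZero hq hA hC ?_ hob
  exact (invSub (M := M) A m).sub_mem (TEnd_mem_invSub hM hD hy)
    ((invSub (M := M) A m).smul_of_tower_mem (ℓ + 1) hy)

include hq hA in
/-- `c • (W_q y + y) ∈ T` for `y` invariant. -/
theorem wTwist_mem (hC : ChainHyp h A m c) {y : Additive (Kum Kb (FK M) m)}
    (hy : y ∈ invSub (M := M) A m) :
    c • (autEnd (wAut h) m y + y) ∈ kerRed M A m ⊓ kerRed₂ h A m := by
  refine nsmul_mem_of_obZero hq hA hC ?_ (obZero_wTwist h A m hq hA y hy)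
  exact (invSub (M := M) A m).add_mem (wAut_mem_invSub hy) hy

/-! ### (H3): stability of the toric part -/

omit [NeZero m] in
/-- **`W_q ∘ T_ℓ = T_ℓ ∘ W_q`** on `Kum_m(F_M)`, every prime `ℓ ∤ M` (exact, no `ℓ ∤ m`). -/
theorem wAut_kumTl {ℓ : ℕ} (hℓ : ℓ.Prime) (hℓM : ¬ ℓ ∣ M) (x : Additive (Kum Kb (FK M) m)) :
    autEnd (wAut h) m (kumTl M m hℓ hℓM x) = kumTl M m hℓ hℓM (autEnd (wAut h) m x) := by
  have : Fact ℓ.Prime := ⟨hℓ⟩
  have : NeZero ℓ := ⟨hℓ.ne_zero⟩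
  obtain ⟨u, rfl⟩ := exists_rep x
  unfold kumTl
  rw [TEnd_mk, autEnd_mk, autEnd_mk, TEnd_mk]
  refine congrArg (fun v => Additive.ofMul (Kum.mk v)) (Subtype.ext ?_)
  exact (heckeUnits_wAut h hℓM _ (u : (FK M)ˣ)).symm

omit [NeZero m] in
/-- the toric part is stable under `W_q`. -/
theorem wAut_mem_toric {x : Additive (Kum Kb (FK M) m)}
    (hx : x ∈ kerRed M A m ⊓ kerRed₂ h A m) :
    autEnd (wAut h) m x ∈ kerRed M A m ⊓ kerRed₂ h A m := by
  refine AddSubgroup.mem_inf.mpr ⟨(mem_kerRed₂_iff h m x).mp hx.2, ?_⟩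
  rw [mem_kerRed₂_iff, autEnd_wAut_autEnd_wAut]
  exact hx.1

omit [NeZero m] in
/-- the toric part is stable under `T_ℓ`, every prime `ℓ ∤ M`. -/
theorem kumTl_mem_toric {ℓ : ℕ} (hℓ : ℓ.Prime) (hℓM : ¬ ℓ ∣ M) {x : Additive (Kum Kb (FK M) m)}
    (hx : x ∈ kerRed M A m ⊓ kerRed₂ h A m) :
    kumTl M m hℓ hℓM x ∈ kerRed M A m ⊓ kerRed₂ h A m := by
  refine AddSubgroup.mem_inf.mpr ⟨kumTl_mem_kerRed m hℓ hℓM hx.1, ?_⟩
  rw [mem_kerRed₂_iff, wAut_kumTl]
  exact kumTl_mem_kerRed m hℓ hℓM ((mem_kerRed₂_iff h m x).mp hx.2)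

/-! ### the final chain -/

include hq hA in
/-- **(EIS)**: the Eisenstein ideal kills the invariant classes modulo the toric part. -/
theorem eis_nsmul_mem
    (ψ : MvPolynomial Nat.Primes ℤ →+* Module.End (ZMod m) (Additive (Kum Kb (FK M) m)))
    (hψT : ∀ (ℓ : Nat.Primes) (hℓ : ¬ (ℓ : ℕ) ∣ M), ψ (MvPolynomial.X ℓ) = kumTl M m ℓ.2 hℓ)
    (hψU : ∀ ℓ : Nat.Primes, (ℓ : ℕ) ∣ M →
      ∀ y, ψ (MvPolynomial.X ℓ) y = - autEnd (wAut h) m y)
    (hC : ChainHyp h A m c) {n : ℕ} {f : MvPolynomial Nat.Primes ℤ}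
    (hf : MvPolynomial.aeval (eisensteinSystem M) f = (0 : ℤ))
    (hn : ψ f = (n : Module.End (ZMod m) (Additive (Kum Kb (FK M) m)))) :
    ∀ y ∈ invSub (M := M) A m, (c * n) • y ∈ kerRed M A m ⊓ kerRed₂ h A m := by
  intro y hy
  have key := nsmul_mem_of_mem_ker ψ (eisensteinSystem M) (invSub (M := M) A m).toAddSubgroup
    (divSub (kerRed M A m ⊓ kerRed₂ h A m) c) ?_ ?_ hf hn y hy
  · rw [mem_divSub, smul_smul] at key
    exact key
  · -- stability of `divSub T c`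
    intro ℓ x hx
    by_cases hℓ : (ℓ : ℕ) ∣ M
    · rw [mem_divSub] at hx ⊢
      rw [hψU ℓ hℓ, smul_neg, ← map_nsmul]
      exact AddSubgroup.neg_mem _ (wAut_mem_toric hx)
    · rw [hψT ℓ hℓ]
      exact divSub_stable _ (fun z hz => kumTl_mem_toric ℓ.2 hℓ hz) x hx
  · -- the Eisenstein relations
    intro ℓ y hy
    by_cases hℓ : (ℓ : ℕ) ∣ M
    · rw [mem_divSub, hψU ℓ hℓ, eisensteinSystem_of_dvd hℓ, one_smul]
      have h1 := wTwist_mem hq hA hC hy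
      have e : c • (-(autEnd (wAut h) m y) - y) = -(c • (autEnd (wAut h) m y + y)) := by
        rw [← smul_neg, neg_add, sub_eq_add_neg]
      rw [e]
      exact AddSubgroup.neg_mem _ h1
    · rw [mem_divSub, hψT ℓ hℓ, eisensteinSystem_of_not_dvd hℓ]
      have h1 := eisTwist_mem hq hA hC ℓ.2 hℓ hy
      have e : ((1 : ℤ) + ((ℓ : ℕ) : ℤ)) • y = ((ℓ : ℕ) + 1) • y := by
        rw [add_comm, ← Nat.cast_one (R := ℤ), ← Nat.cast_add, natCast_zsmul]
      rw [e]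
      exact h1

end Fermat.Agent.GB.A3.EisKill
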