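/-
GATE-Z / LOCP (b') = BOB, route H, leaf (S16-BR) (helper73): **the Eisenstein numerator lies in the
Eisenstein ideal, at polynomial level.**

From `S16.result` (`#(𝕋 / I_Eis) = n`, `n = eisensteinNumerator p`, `𝕋 = heckeLatticeAlgebra p ∅`):
there is a polynomial `f ∈ ℤ[X_ℓ]` killed by the Eisenstein system of level `p`
(`X_ℓ ↦ 1 + ℓ` for `ℓ ≠ p`, `X_p ↦ 1`) whose image in the Hecke algebra `heckeAlgebra p 2 ∅` of
weight-2 cusp forms is the integer `n`.
-/
import Fermat.Agent.S16
import Fermat.Agent.S23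

set_option autoImplicit false

namespace Fermat.Agent.GB.A3.EisPoly

open ModularCurve CuspForm Fermat.Agent.S16

variable (p : ℕ) [Fact p.Prime]

/-- `eisensteinNumerator p = (p − 1) / gcd (p − 1, 12)` is positive for a prime `p`. -/
theorem eisensteinNumerator_pos : 0 < eisensteinNumerator p := by
  have hp : 2 ≤ p := (Fact.out : p.Prime).two_le
  unfold eisensteinNumerator
  have h1 : 0 < p - 1 := by omega
  exact Nat.div_pos (Nat.le_of_dvd h1 (Nat.gcd_dvd_left _ _)) (Nat.gcd_pos_of_pos_left _ h1)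

/-- the Eisenstein numerator lies in the Eisenstein ideal of the lattice Hecke algebra. -/
theorem natCast_mem_eisI : ((eisensteinNumerator p : ℕ) : ↥(heckeLatticeAlgebra p ∅)) ∈ eisI p := by
  have hcard : Nat.card (↥(heckeLatticeAlgebra p ∅) ⧸ eisI p) = eisensteinNumerator p :=
    Fermat.Agent.S16.result p
  have hpos := eisensteinNumerator_pos p
  have : Finite (↥(heckeLatticeAlgebra p ∅) ⧸ eisI p) :=
    Nat.finite_of_card_ne_zero (by rw [hcard]; exact hpos.ne')
  have h1 : (Nat.card (↥(heckeLatticeAlgebra p ∅) ⧸ eisI p)) •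
      (1 : ↥(heckeLatticeAlgebra p ∅) ⧸ eisI p) = 0 := card_nsmul_eq_zero'
  rw [hcard, nsmul_eq_mul, mul_one] at h1
  have h2 : Ideal.Quotient.mk (eisI p) ((eisensteinNumerator p : ℕ) : ↥(heckeLatticeAlgebra p ∅)) =
      0 := by
    rw [map_natCast]
    exact h1
  exact Ideal.Quotient.eq_zero_iff_mem.mp h2

/-- **(S16-BR)**: a polynomial killed by the Eisenstein system whose Hecke image is the Eisenstein
numerator. -/
theorem exists_eis_poly :
    ∃ f : HeckeAlg, MvPolynomial.aeval (eisensteinSystem p) f = (0 : ℤ) ∧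
      heckeEvalForms p 2 f = ((eisensteinNumerator p : ℕ) : ↥(heckeAlgebra p 2 ∅)) := by
  have : NeZero p := ⟨(Fact.out : p.Prime).ne_zero⟩
  obtain ⟨f, hf, hfn⟩ :=
    (Ideal.mem_map_iff_of_surjective (phi p) (phi_surjective p)).1 (natCast_mem_eisI p)
  refine ⟨f, (mem_eigenIdeal_iff _ f).mp hf, ?_⟩
  have hinj := (latticeRestrictHom_bijective p ∅ (Fermat.Agent.S23.result p)).1
  apply hinj
  rw [map_natCast]
  exact hfn

end Fermat.Agent.GB.A3.EisPoly
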